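import Fermat.Agent.S19.H979.LocalGlue

/-!
# Cell A3 (S19) — RANK ONE  (helper979)

`rankOneStatement : RankOneStatement`: a valuation ring `V` of `Q̄` in which the prime `ℓ` is not a
unit has rank one, in the form used by the abstract LOCAL theorem:
`a ∈ 𝔪_V`, `b ≠ 0`  ⟹  `a ^ n / b ∈ V` for some `n`.

Consequence: `localStatement_of_abs_gr' : AbsLocalStatement → GrStatement → S19.LocalStatement`.
-/

set_option autoImplicit false

noncomputable section

namespace Fermat.Agent.S19.H979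

open Polynomial Fermat.Agent.S19

section LocalRing

variable {A : Type*} [CommRing A] [IsLocalRing A]

/-- An integer prime to `ℓ` is a unit in a local ring in which `ℓ` is not a unit. -/
theorem isUnit_intCast_of_not_dvd {ℓ : ℕ} (hℓ : ℓ.Prime) (hℓA : ((ℓ : ℤ) : A) ∈ nonunits A)
    {u : ℤ} (hu : ¬ (ℓ : ℤ) ∣ u) : IsUnit ((u : ℤ) : A) := by
  have hcop : IsCoprime (ℓ : ℤ) u :=
    (Prime.coprime_iff_not_dvd (Nat.prime_iff_prime_int.1 hℓ)).2 hu
  obtain ⟨x, y, hxy⟩ := hcop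
  have h1 : ((y : ℤ) : A) * ((u : ℤ) : A) = 1 - ((x : ℤ) : A) * ((ℓ : ℤ) : A) := by
    have := congrArg (Int.cast : ℤ → A) hxy
    push_cast at this
    push_cast
    linear_combination this
  have h2 : ((x : ℤ) : A) * ((ℓ : ℤ) : A) ∈ nonunits A := by
    rw [← IsLocalRing.mem_maximalIdeal] at hℓA ⊢
    exact Ideal.mul_mem_left _ _ hℓA
  have h3 : IsUnit (((y : ℤ) : A) * ((u : ℤ) : A)) := by
    rw [h1]
    exact IsLocalRing.isUnit_one_sub_self_of_mem_nonunits _ h2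
  exact isUnit_of_mul_isUnit_right h3

/-- Newton-polygon step: if `p ∈ ℤ[X]` has its first `ℓ`-unit coefficient in degree `n` and
`ℓ ∣ p(a) a^k` for a non-unit `a`, then `ℓ ∣ a ^ (n + k)`. -/
theorem dvd_pow_of_aeval {ℓ : ℕ} (hℓ : ℓ.Prime) (hℓA : ((ℓ : ℤ) : A) ∈ nonunits A)
    (a : A) (ha : a ∈ nonunits A) :
    ∀ (n k : ℕ) (p : ℤ[X]), (∀ i < n, (ℓ : ℤ) ∣ p.coeff i) → ¬ (ℓ : ℤ) ∣ p.coeff n →
      ((ℓ : ℤ) : A) ∣ aeval a p * a ^ k → ((ℓ : ℤ) : A) ∣ a ^ (n + k) := by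
  intro n
  induction n with
  | zero =>
    intro k p _ h0 hdiv
    have hp : aeval a p = aeval a p.divX * a + ((p.coeff 0 : ℤ) : A) := by
      conv_lhs => rw [← divX_mul_X_add p]
      simp
    have hu : IsUnit (aeval a p) := by
      by_contra hnu
      have h1 : aeval a p.divX * a ∈ nonunits A := by
        rw [← IsLocalRing.mem_maximalIdeal] at ha ⊢
        exact Ideal.mul_mem_left _ _ ha
      have h2 : ((p.coeff 0 : ℤ) : A) ∈ nonunits A := by
        have h3 : ((p.coeff 0 : ℤ) : A) = aeval a p - aeval a p.divX * a := by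
          rw [hp]; ring
        rw [h3]
        rw [← IsLocalRing.mem_maximalIdeal] at h1 ⊢
        exact Ideal.sub_mem _ ((IsLocalRing.mem_maximalIdeal _).2 hnu) h1
      exact h2 (isUnit_intCast_of_not_dvd hℓ hℓA h0)
    rw [zero_add]
    exact (hu.dvd_mul_left).1 hdiv
  | succ n ih =>
    intro k p hlow hn hdiv
    have hp : aeval a p = aeval a p.divX * a + ((p.coeff 0 : ℤ) : A) := by
      conv_lhs => rw [← divX_mul_X_add p]
      simp
    have h0 : ((ℓ : ℤ) : A) ∣ ((p.coeff 0 : ℤ) : A) := by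
      obtain ⟨c, hc⟩ := hlow 0 (Nat.succ_pos n)
      exact ⟨(c : A), by rw [hc]; push_cast; ring⟩
    have h1 : ((ℓ : ℤ) : A) ∣ aeval a p.divX * a ^ (k + 1) := by
      have h2 : aeval a p.divX * a ^ (k + 1) =
          aeval a p * a ^ k - ((p.coeff 0 : ℤ) : A) * a ^ k := by
        rw [hp]; ring
      rw [h2]
      exact dvd_sub hdiv (Dvd.dvd.mul_right h0 _)
    have h3 := ih (k + 1) p.divX
      (fun i hi => by rw [coeff_divX]; exact hlow (i + 1) (Nat.succ_lt_succ hi))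
      (by rw [coeff_divX]; exact hn) h1
    have h4 : n + 1 + k = n + (k + 1) := by ring
    rw [h4]
    exact h3

end LocalRing

/-- Every element of `Q̄` is algebraic over `ℤ`. -/
theorem isAlgebraic_int_qb (x : Qb) : IsAlgebraic ℤ x :=
  (IsFractionRing.isAlgebraic_iff ℤ ℚ Qb).2 ((AlgebraicClosure.isAlgebraic ℚ).isAlgebraic x)

/-- Step B: a power of a non-unit is divisible by `ℓ`. -/
theorem exists_pow_eq_ell_mul {ℓ : ℕ} (hℓ : ℓ.Prime) (V : ValuationSubring Qb)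
    (hℓV : (ℓ : Qb) ∈ V.nonunits) (a : Qb) (ha : a ∈ V.nonunits) :
    ∃ (j : ℕ) (s : Qb), s ∈ V ∧ a ^ j = (ℓ : Qb) * s := by
  by_cases ha0 : a = 0
  · exact ⟨1, 0, V.zero_mem, by rw [ha0]; simp⟩
  obtain ⟨haV, ham⟩ := (V.mem_nonunits_iff_exists_mem_maximalIdeal).1 ha
  obtain ⟨hℓmem, hℓm⟩ := (V.mem_nonunits_iff_exists_mem_maximalIdeal).1 hℓV
  obtain ⟨p, hp0, hpa⟩ := isAlgebraic_int_qb a
  have hq : aeval a p.primPart = 0 := aeval_primPart_eq_zero hp0 hpa
  have hprim : p.primPart.IsPrimitive := isPrimitive_primPart p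
  have hex : ∃ i, ¬ (ℓ : ℤ) ∣ p.primPart.coeff i := by
    by_contra hcon
    push Not at hcon
    have h1 : C (ℓ : ℤ) ∣ p.primPart := (C_dvd_iff_dvd_coeff _ _).2 hcon
    have h2 : IsUnit (ℓ : ℤ) := hprim _ h1
    exact (Nat.prime_iff_prime_int.1 hℓ).not_isUnit h2
  classical
  let n := Nat.find hex
  have hn : ¬ (ℓ : ℤ) ∣ p.primPart.coeff n := Nat.find_spec hex
  have hlow : ∀ i < n, (ℓ : ℤ) ∣ p.primPart.coeff i := fun i hi => by
    have := Nat.find_min hex hi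
    push Not at this
    exact this
  -- transfer to the local ring `V`
  let a' : V := ⟨a, haV⟩
  have ha' : a' ∈ nonunits V := (IsLocalRing.mem_maximalIdeal _).1 ham
  have hℓ' : (((ℓ : ℤ) : V)) ∈ nonunits V := by
    have h : (((ℓ : ℤ) : V)) = ⟨(ℓ : Qb), hℓmem⟩ := Subtype.ext (by simp)
    rw [h]
    exact (IsLocalRing.mem_maximalIdeal _).1 hℓm
  have haev : aeval a' p.primPart = 0 := by
    have h1 : algebraMap V Qb (aeval a' p.primPart) = aeval (algebraMap V Qb a') p.primPart :=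
      (aeval_algebraMap_apply Qb a' p.primPart).symm
    have h2 : aeval (algebraMap V Qb a') p.primPart = 0 := hq
    rw [h2] at h1
    exact (FaithfulSMul.algebraMap_injective V Qb) (by rw [h1, map_zero])
  have hdiv : (((ℓ : ℤ) : V)) ∣ aeval a' p.primPart * a' ^ 0 := by
    rw [haev, zero_mul]
    exact dvd_zero _
  obtain ⟨s, hs⟩ := dvd_pow_of_aeval hℓ hℓ' a' ha' n 0 p.primPart hlow hn hdiv
  refine ⟨n, (s : Qb), s.2, ?_⟩
  have := congrArg (fun x : V => (x : Qb)) hs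
  simpa using this

/-- Step A: every nonzero element divides a power of `ℓ`. -/
theorem exists_ell_pow_div_mem {ℓ : ℕ} (hℓ : ℓ.Prime) (V : ValuationSubring Qb)
    (hℓV : (ℓ : Qb) ∈ V.nonunits) (b : Qb) :
    ∃ m : ℕ, (ℓ : Qb) ^ m / b ∈ V := by
  obtain ⟨hℓmem, hℓm⟩ := (V.mem_nonunits_iff_exists_mem_maximalIdeal).1 hℓV
  have hℓ' : (((ℓ : ℤ) : V)) ∈ nonunits V := by
    have h : (((ℓ : ℤ) : V)) = ⟨(ℓ : Qb), hℓmem⟩ := Subtype.ext (by simp)
    rw [h]
    exact (IsLocalRing.mem_maximalIdeal _).1 hℓm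
  obtain ⟨d, hd0, hd⟩ := (isAlgebraic_int_qb b⁻¹).exists_integral_multiple
  -- `d • b⁻¹ ∈ V`
  have hdV : (d : Qb) * b⁻¹ ∈ V := by
    have h1 : IsIntegral V (d • b⁻¹ : Qb) := hd.tower_top
    obtain ⟨y, hy⟩ := (IsIntegrallyClosed.isIntegral_iff (R := V) (K := Qb)).1 h1
    have h2 : (d • b⁻¹ : Qb) = (d : Qb) * b⁻¹ := by simp [zsmul_eq_mul]
    rw [← h2, ← hy]
    exact y.2
  -- `d = ℓ ^ m * u` with `u` prime to `ℓ`
  have hfin : FiniteMultiplicity (ℓ : ℤ) d :=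
    Int.finiteMultiplicity_iff.2 ⟨by simpa using hℓ.ne_one, hd0⟩
  obtain ⟨u, hdu, hu⟩ := hfin.exists_eq_pow_mul_and_not_dvd
  have huV : IsUnit ((u : ℤ) : V) := isUnit_intCast_of_not_dvd hℓ hℓ' hu
  obtain ⟨w, hw⟩ := huV.exists_left_inv
  refine ⟨multiplicity (ℓ : ℤ) d, ?_⟩
  have hwu : (w : Qb) * (u : Qb) = 1 := by
    have := congrArg (fun x : V => (x : Qb)) hw
    simpa using this
  have key : (ℓ : Qb) ^ multiplicity (ℓ : ℤ) d / b = (w : Qb) * ((d : Qb) * b⁻¹) := by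
    have hdq : (d : Qb) = (ℓ : Qb) ^ multiplicity (ℓ : ℤ) d * (u : Qb) := by
      conv_lhs => rw [hdu]
      push_cast
      ring
    rw [hdq, div_eq_mul_inv]
    calc (ℓ : Qb) ^ multiplicity (ℓ : ℤ) d * b⁻¹
        = ((w : Qb) * (u : Qb)) * ((ℓ : Qb) ^ multiplicity (ℓ : ℤ) d * b⁻¹) := by
          rw [hwu, one_mul]
      _ = (w : Qb) * ((ℓ : Qb) ^ multiplicity (ℓ : ℤ) d * (u : Qb) * b⁻¹) := by ring
  rw [key]
  exact V.mul_mem _ _ w.2 hdV

/-- **RANK ONE.** -/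
theorem rankOneStatement : RankOneStatement := by
  intro ℓ hfact V hℓV a b ha _
  obtain ⟨j, s, hs, hjs⟩ := exists_pow_eq_ell_mul hfact.out V hℓV a ha
  obtain ⟨m, hm⟩ := exists_ell_pow_div_mem hfact.out V hℓV b
  refine ⟨j * m, ?_⟩
  have key : a ^ (j * m) / b = s ^ m * ((ℓ : Qb) ^ m / b) := by
    rw [pow_mul, hjs, mul_pow]
    ring
  rw [key]
  exact V.mul_mem _ _ (V.pow_mem hs m) hm

/-- **Glue, final form**: LOCAL from the abstract LOCAL theorem and the good-reduction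
instance. -/
theorem localStatement_of_abs_gr' (hD : AbsLocalStatement) (hG : GrStatement) :
    LocalStatement :=
  localStatement_of_abs_gr hD hG rankOneStatement

end Fermat.Agent.S19.H979

end
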