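import Fermat.Agent.S19.H979.GrSpec

/-!
# Cell A3 (S19) — leaf GR-G  (helper979)

`grInertiaRedStatement : GrInertiaRedStatement`: for every `S37.Red.ModDatum N A`, the inertia
group of `A` preserves `O` and acts trivially after reduction, `ρ (τ f) = ρ f`.

Proof: `ρ` and `ρ' := ρ ∘ τ` are ring maps `O → F_k` with `ker ρ ⊆ ker ρ'`, which agree on lifts of
the constants and of the generators `j(q^d)` of `F_k = k(j(q^d) : d ∣ N)`; an induction over the
intermediate field generated (`ringHom_eq_of_adjoin`) gives `ρ' = ρ`.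
-/

set_option autoImplicit false
set_option synthInstance.maxHeartbeats 400000

noncomputable section

open AlgebraicCurve ModularCurve IsLocalRing HahnSeries

namespace Fermat.Agent.S19.H979

open Fermat.Agent.S19

section Abstract

variable {O : Type*} [CommRing O] {k E : Type*} [Field k] [Field E] [Algebra k E]

/-- Two ring maps `ρ, ρ' : O → k(S)` with `ρ` onto and `ker ρ ⊆ ker ρ'` which agree on lifts of
the constants and of the generators are equal. -/
theorem ringHom_eq_of_adjoin (S : Set E) (ρ ρ' : O →+* IntermediateField.adjoin k S)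
    (hsurj : Function.Surjective ρ) (hker : ∀ f, ρ f = 0 → ρ' f = 0)
    (hconst : ∀ c : k, ∃ f, ρ f = algebraMap k (IntermediateField.adjoin k S) c ∧
      ρ' f = algebraMap k (IntermediateField.adjoin k S) c)
    (hgen : ∀ x (hx : x ∈ S), ∃ f, ρ f = ⟨x, IntermediateField.subset_adjoin k S hx⟩ ∧
      ρ' f = ⟨x, IntermediateField.subset_adjoin k S hx⟩) :
    ∀ f, ρ' f = ρ f := by
  have hcong : ∀ f g, ρ f = ρ g → ρ' f = ρ' g := fun f g h => by
    have h1 : ρ (f - g) = 0 := by rw [map_sub, h, sub_self]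
    have h2 := hker _ h1
    rw [map_sub, sub_eq_zero] at h2
    exact h2
  have key : ∀ (x : E) (hx : x ∈ IntermediateField.adjoin k S),
      ∀ f, ρ f = ⟨x, hx⟩ → ρ' f = ⟨x, hx⟩ := by
    intro x hx
    induction hx using IntermediateField.adjoin_induction with
    | mem x hx =>
      intro f hf
      obtain ⟨g, hg, hg'⟩ := hgen x hx
      rw [hcong f g (hf.trans hg.symm), hg']
    | algebraMap c =>
      intro f hf
      obtain ⟨g, hg, hg'⟩ := hconst c
      have hc : (⟨algebraMap k E c, IntermediateField.algebraMap_mem _ c⟩ :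
          IntermediateField.adjoin k S) = algebraMap k (IntermediateField.adjoin k S) c := rfl
      rw [hc] at hf ⊢
      rw [hcong f g (hf.trans hg.symm), hg']
    | add x y hx hy ihx ihy =>
      intro f hf
      obtain ⟨f₁, hf₁⟩ := hsurj ⟨x, hx⟩
      have h2 : ρ (f - f₁) = ⟨y, hy⟩ := by
        rw [map_sub, hf, hf₁]
        exact Subtype.ext (add_sub_cancel_left x y)
      have h3 : ρ' f = ρ' (f - f₁) + ρ' f₁ := by rw [← map_add, sub_add_cancel]
      rw [h3, ihx f₁ hf₁, ihy _ h2]
      exact Subtype.ext (add_comm y x)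
    | inv x hx ih =>
      intro f hf
      by_cases hx0 : x = 0
      · have h0 : (⟨x⁻¹, inv_mem hx⟩ : IntermediateField.adjoin k S) = 0 := by
          apply Subtype.ext
          show x⁻¹ = 0
          rw [hx0, inv_zero]
        rw [h0] at hf ⊢
        exact hker f hf
      · obtain ⟨f₁, hf₁⟩ := hsurj ⟨x, hx⟩
        have h1 : ρ (f * f₁) = ρ 1 := by
          rw [map_mul, hf, hf₁, map_one]
          exact Subtype.ext (inv_mul_cancel₀ hx0)
        have h2 := hcong _ _ h1
        rw [map_mul, map_one, ih f₁ hf₁] at h2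
        have hne : (⟨x, hx⟩ : IntermediateField.adjoin k S) ≠ 0 := fun h =>
          hx0 (congrArg Subtype.val h)
        have h3 : ρ' f = (⟨x, hx⟩ : IntermediateField.adjoin k S)⁻¹ :=
          eq_inv_of_mul_eq_one_left h2
        rw [h3]
        rfl
    | mul x y hx hy ihx ihy =>
      intro f hf
      obtain ⟨f₁, hf₁⟩ := hsurj ⟨x, hx⟩
      obtain ⟨f₂, hf₂⟩ := hsurj ⟨y, hy⟩
      have h1 : ρ f = ρ (f₁ * f₂) := by
        rw [map_mul, hf, hf₁, hf₂]
        rfl
      rw [hcong _ _ h1, map_mul, ihx f₁ hf₁, ihy f₂ hf₂]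
      rfl
  intro f
  exact key _ (ρ f).2 f rfl

end Abstract

section Valuation

variable {F : Type*} [Field F] {Fk : Type*} [Field Fk]

/-- A surjective ring map from a valuation ring onto a field kills the non-units. -/
theorem rho_eq_zero_of_inv_not_mem (O : ValuationSubring F) (ρ : O →+* Fk)
    (hsurj : Function.Surjective ρ) (g : O) (hg : ((g : F))⁻¹ ∉ O) : ρ g = 0 := by
  by_contra hne
  obtain ⟨h, hh⟩ := hsurj (ρ g)⁻¹
  have h1 : ρ (g * h) = 1 := by rw [map_mul, hh, mul_inv_cancel₀ hne]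
  -- `g h` is a non-unit, so `1 - g h` is a unit in the kernel
  have hgm : g ∈ maximalIdeal O := by
    rw [mem_maximalIdeal, mem_nonunits_iff]
    intro hu
    obtain ⟨u, rfl⟩ := hu
    apply hg
    have h2 : ((u : O) : F) * (((u⁻¹ : Oˣ) : O) : F) = 1 := by
      rw [← O.coe_mul, Units.mul_inv]; rfl
    rw [← eq_inv_of_mul_eq_one_right h2]
    exact (((u⁻¹ : Oˣ) : O)).2
  have hghm : g * h ∈ maximalIdeal O := Ideal.mul_mem_right _ _ hgm
  have hu : IsUnit (1 - g * h) :=
    IsLocalRing.isUnit_one_sub_self_of_mem_nonunits _ ((mem_maximalIdeal _).1 hghm)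
  have h3 : ρ (1 - g * h) = 0 := by rw [map_sub, map_one, h1, sub_self]
  exact (hu.map ρ).ne_zero h3

end Valuation

/-- The series `j(q^d)` with coefficients in `A`. -/
def jSeries (A : ValuationSubring Qb) (d : ℕ) [NeZero d] : LaurentSeries A :=
  qExpand A d (jqModC A)

theorem coeffMap_subtype_jSeries (A : ValuationSubring Qb) (d : ℕ) [NeZero d] :
    coeffMap A.subtype (jSeries A d) = coeffEmb Qb (qExpand ℚ d jq) := by
  rw [jSeries, coeffMap_qExpand, coeffMap_jqModC, coeffEmb, coeffMap_qExpand, ← jqModC_rat,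
    coeffMap_jqModC]

theorem coeffMap_residue_jSeries (A : ValuationSubring Qb) (d : ℕ) [NeZero d] :
    coeffMap (residue A) (jSeries A d) = qExpand (kRes A) d (jqModC (kRes A)) := by
  rw [jSeries, coeffMap_qExpand, coeffMap_jqModC]

set_option maxHeartbeats 1000000 in
/-- **GR-G**: inertia preserves `O` and acts trivially after reduction. -/
theorem grInertiaRedStatement : GrInertiaRedStatement := by
  intro N A M σ hσ
  have hσd : σ ∈ A.decompositionSubgroup ℚ :=
    Fermat.Agent.S05.Sq12.mem_decomp_of_mem_inertiaIn A hσ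
  have hσinv : σ⁻¹ ∈ A.decompositionSubgroup ℚ := inv_mem hσd
  have hmem : ∀ f : FNb N, f ∈ M.G.O → galAct N σ • f ∈ M.G.O := M.galois_mem σ hσd
  have hmem' : ∀ f : FNb N, f ∈ M.G.O → galAct N σ⁻¹ • f ∈ M.G.O := M.galois_mem σ⁻¹ hσinv
  -- the ring map `τ : O → O`
  let τ : M.G.O →+* M.G.O :=
    { toFun := fun f => ⟨galAct N σ • (f : FNb N), hmem _ f.2⟩
      map_one' := Subtype.ext (smul_one _)
      map_mul' := fun f g => Subtype.ext (smul_mul' _ _ _)
      map_zero' := Subtype.ext (smul_zero _)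
      map_add' := fun f g => Subtype.ext (smul_add _ _ _) }
  have hτ : ∀ f : M.G.O, ((τ f : M.G.O) : FNb N) = galAct N σ • (f : FNb N) := fun _ => rfl
  suffices h : ∀ f, (M.G.ρ.comp τ) f = M.G.ρ f from fun f => ⟨hmem _ f.2, h f⟩
  refine ringHom_eq_of_adjoin (divisorExpansionsC (kRes A) N) M.G.ρ (M.G.ρ.comp τ)
    M.G.ρ_surj ?_ ?_ ?_
  · -- kernel
    intro f hf
    show M.G.ρ (τ f) = 0
    by_cases hf0 : (f : FNb N) = 0
    · have hτ0 : (τ f : M.G.O) = 0 := by
        apply Subtype.ext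
        rw [hτ, hf0, smul_zero]
        rfl
      rw [hτ0, map_zero]
    apply rho_eq_zero_of_inv_not_mem M.G.O M.G.ρ M.G.ρ_surj
    intro hinv
    -- then `f⁻¹ = σ⁻¹ ((σ f)⁻¹) ∈ O`, so `f` is a unit, contradiction
    have h1 : galAct N σ⁻¹ • ((galAct N σ • (f : FNb N)))⁻¹ ∈ M.G.O := hmem' _ hinv
    have h2 : galAct N σ⁻¹ • ((galAct N σ • (f : FNb N)))⁻¹ = ((f : FNb N))⁻¹ := by
      rw [smul_inv'', ← mul_smul, ← map_mul, inv_mul_cancel, map_one, one_smul]
    rw [h2] at h1
    have h3 : (f * ⟨((f : FNb N))⁻¹, h1⟩ : M.G.O) = 1 :=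
      Subtype.ext (mul_inv_cancel₀ hf0)
    have h4 := congrArg M.G.ρ h3
    have hf' : M.G.ρ f = 0 := hf
    rw [map_mul, hf', zero_mul, map_one] at h4
    exact zero_ne_one h4
  · -- constants
    intro c
    obtain ⟨a, rfl⟩ := IsLocalRing.residue_surjective c
    refine ⟨⟨algebraMap Qb (FNb N) (a : Qb), M.G.const_mem a⟩, M.G.ρ_const a, ?_⟩
    show M.G.ρ (τ _) = _
    have h1 : σ (a : Qb) ∈ A := Fermat.Agent.S37.H817.mem_of_mem_inertiaSubgroupIn ℚ hσ a
    have h2 : residue A ⟨σ (a : Qb), h1⟩ = residue A a :=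
      Fermat.Agent.S37.H817.residue_of_mem_inertiaSubgroupIn ℚ hσ a
    have h3 : (τ ⟨algebraMap Qb (FNb N) (a : Qb), M.G.const_mem a⟩ : M.G.O) =
        ⟨algebraMap Qb (FNb N) (((⟨σ (a : Qb), h1⟩ : A) : Qb)), M.G.const_mem _⟩ := by
      apply Subtype.ext
      rw [hτ]
      exact SemilinearAut.smul_algebraMap _ _
    rw [h3, M.G.ρ_const, h2]
    rfl
  · -- generators
    rintro x ⟨d, hd, hdN, rfl⟩
    have := hd
    have hy : coeffMap A.subtype (jSeries A d) ∈ modularFunctionFieldBar N := by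
      rw [coeffMap_subtype_jSeries]
      exact coeffEmb_mem_laurentBaseChange Qb (jqd_mem_full N hdN)
    have hyk : coeffMap (residue A) (jSeries A d) ∈ modularFunctionFieldFullC (kRes A) N := by
      rw [coeffMap_residue_jSeries]
      exact jqModCd_mem_full (kRes A) N hdN
    have hne : coeffMap (residue A) (jSeries A d) ≠ 0 := by
      rw [coeffMap_residue_jSeries]
      exact (map_ne_zero (qExpand (kRes A) d)).2 (jqModC_ne_zero_of_nontrivial (kRes A))
    obtain ⟨h, hρ⟩ := M.link (jSeries A d) hy hyk hne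
    have hval : (⟨coeffMap (residue A) (jSeries A d), hyk⟩ : FNres A N) =
        ⟨qExpand (kRes A) d (jqModC (kRes A)),
          IntermediateField.subset_adjoin (kRes A) _ ⟨d, hd, hdN, rfl⟩⟩ :=
      Subtype.ext (coeffMap_residue_jSeries A d)
    refine ⟨⟨⟨coeffMap A.subtype (jSeries A d), hy⟩, h⟩, hρ.trans hval, ?_⟩
    show M.G.ρ (τ _) = _
    have hfix : (τ ⟨⟨coeffMap A.subtype (jSeries A d), hy⟩, h⟩ : M.G.O) =
        ⟨⟨coeffMap A.subtype (jSeries A d), hy⟩, h⟩ := by
      apply Subtype.ext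
      rw [hτ]
      apply Subtype.ext
      rw [coe_arithmeticGalois_smul]
      show coeffMap (σ : Qb →+* Qb) (coeffMap A.subtype (jSeries A d)) =
        coeffMap A.subtype (jSeries A d)
      rw [coeffMap_subtype_jSeries, coeffMap_coeffEmb]
    rw [hfix]
    exact hρ.trans hval

end Fermat.Agent.S19.H979

end
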