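import Fermat.Agent.S19.H979.GrInertiaRed
import Fermat.Agent.S37.Red.H759.PassageDatum
import Fermat.Agent.S37.Red.H160.DatumBasic
import Fermat.Agent.S37.H568.ValueGroup
import Fermat.Agent.S37.H98.Gen

/-!
# Cell A3 (S19) — block GR: a LINKED reduction datum on `Q̄(X₀(N))`  (helper979)

`G : S37.Red.Datum A (residue A) F_N F_{N,k}` with `S37.Red.H759.Link G` (every Prelude-integral
`q`-series lies in `O` and `ρ` is its coefficientwise reduction), `A` above `ℓ ∤ N`.  Using the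
value-group theorem `S37.H568.valueGroupHyp_modular` (every `f ≠ 0` is `c · y₁ / y₂` with `y_i`
integral series with nonzero reduction) we prove, WITHOUT any hypothesis on the charts:

* `gauss_of_link`        : every `f ≠ 0` is `a · u`, `a ∈ Q̄ˣ`, `u ∈ Oˣ`            (GR-C);
* `inertia_mem_of_link`  : the inertia group of `A` preserves `O`;
* `inertiaRed_of_link`   : `ρ (τ f) = ρ f` for `τ` in the inertia group          (GR-G).
-/

set_option autoImplicit false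
set_option synthInstance.maxHeartbeats 400000

noncomputable section

open AlgebraicCurve ModularCurve IsLocalRing HahnSeries

namespace Fermat.Agent.S19.H979

open Fermat.Agent.S19 Fermat.Agent.S37

variable {N : ℕ} [NeZero N] {A : ValuationSubring Qb}
  (G : Red.Datum A (residue A) (FNb N) (FNres A N))

/-- integral `q`-series of `F_N` with reduction in `F_{N,k}` -/
abbrev IntQ (N : ℕ) (A : ValuationSubring Qb) : Subring (FNb N) :=
  H940.intQ A (residue A) (modularFunctionFieldBar N) (modularFunctionFieldFullC (kRes A) N)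

/-- reduction of integral `q`-series -/
abbrev redQ' (N : ℕ) (A : ValuationSubring Qb) : IntQ N A →+* FNres A N :=
  H940.redQ A (residue A) (modularFunctionFieldBar N) (modularFunctionFieldFullC (kRes A) N)

omit [NeZero N] in
/-- A series with coefficients in `A` representing an element of `F_N`, with nonzero reduction in
`F_{N,k}`, lies in `O`, and `ρ` is the coefficientwise reduction. -/
theorem mem_of_series (hlink : Red.H759.Link G) (f : FNb N) (s : LaurentSeries A)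
    (hs : coeffMap A.subtype s = (f : LaurentSeries Qb))
    (hsk : coeffMap (residue A) s ∈ modularFunctionFieldFullC (kRes A) N)
    (hne : coeffMap (residue A) s ≠ 0) :
    ∃ h : f ∈ G.O, G.ρ ⟨f, h⟩ = ⟨coeffMap (residue A) s, hsk⟩ := by
  have hy : coeffMap A.subtype s ∈ modularFunctionFieldBar N := by rw [hs]; exact f.2
  obtain ⟨h, hρ⟩ := hlink s hy hsk hne
  have hf : (⟨coeffMap A.subtype s, hy⟩ : FNb N) = f := Subtype.ext hs
  subst hf
  exact ⟨h, hρ⟩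

omit [NeZero N] in
/-- An integral series with nonzero reduction is a unit of `O` with the expected reduction. -/
theorem mem_of_intQ (hlink : Red.H759.Link G) (y : IntQ N A) (hy : redQ' N A y ≠ 0) :
    ∃ h : (y : FNb N) ∈ G.O, G.ρ ⟨(y : FNb N), h⟩ = redQ' N A y := by
  have hs := H940.coeffMap_series A (residue A) (modularFunctionFieldBar N)
    (modularFunctionFieldFullC (kRes A) N) y
  have hsk := H940.coeffMap_series_mem A (residue A) (modularFunctionFieldBar N)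
    (modularFunctionFieldFullC (kRes A) N) y
  have hne : coeffMap (residue A) (H940.series A (residue A) (modularFunctionFieldBar N)
      (modularFunctionFieldFullC (kRes A) N) y) ≠ 0 := fun h0 => hy (Subtype.ext h0)
  exact mem_of_series G hlink (y : FNb N) _ hs hsk hne

/-- The value-group theorem for `Q̄(X₀(N))`, `A` above `ℓ ∤ N`. -/
theorem valueGroup (ℓ : ℕ) (hℓ : ℓ.Prime) (hℓN : ¬ ℓ ∣ N) (hA : (ℓ : Qb) ∈ A.nonunits) :
    H940.ValueGroupHyp A (residue A) (modularFunctionFieldBar N)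
      (modularFunctionFieldFullC (kRes A) N) :=
  H568.valueGroupHyp_modular (H98.coreData_residueField N ℓ hℓ hℓN A hA)

set_option maxHeartbeats 1000000 in
/-- **GR-C** for a linked datum. -/
theorem gauss_of_link (hlink : Red.H759.Link G) (ℓ : ℕ) (hℓ : ℓ.Prime) (hℓN : ¬ ℓ ∣ N)
    (hA : (ℓ : Qb) ∈ A.nonunits) (f : FNb N) (hf : f ≠ 0) :
    ∃ a : Qb, a ≠ 0 ∧ ∃ h : algebraMap Qb (FNb N) a * f ∈ G.O,
      G.ρ ⟨algebraMap Qb (FNb N) a * f, h⟩ ≠ 0 := by
  obtain ⟨c, hc, y₁, y₂, h₁, h₂, hfy⟩ := valueGroup ℓ hℓ hℓN hA f hf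
  obtain ⟨m₁, hρ₁⟩ := mem_of_intQ G hlink y₁ h₁
  obtain ⟨m₂, hρ₂⟩ := mem_of_intQ G hlink y₂ h₂
  have hn₁ : G.ρ ⟨(y₁ : FNb N), m₁⟩ ≠ 0 := by rw [hρ₁]; exact h₁
  have hn₂ : G.ρ ⟨(y₂ : FNb N), m₂⟩ ≠ 0 := by rw [hρ₂]; exact h₂
  have hy₂0 : (y₂ : FNb N) ≠ 0 := by
    intro h0
    apply hn₂
    have : (⟨(y₂ : FNb N), m₂⟩ : G.O) = 0 := Subtype.ext h0
    rw [this, map_zero]
  have hinv : ((y₂ : FNb N))⁻¹ ∈ G.O := Red.H160.inv_mem G m₂ hn₂
  have hρinv := Red.H160.ρ_inv G m₂ hn₂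
  have hc0 : algebraMap Qb (FNb N) c ≠ 0 := by
    rw [Ne, map_eq_zero]; exact hc
  have key : algebraMap Qb (FNb N) c⁻¹ * f = (y₁ : FNb N) * ((y₂ : FNb N))⁻¹ := by
    rw [map_inv₀, inv_mul_eq_iff_eq_mul₀ hc0, ← mul_assoc, ← hfy, mul_assoc,
      mul_inv_cancel₀ hy₂0, mul_one]
  refine ⟨c⁻¹, inv_ne_zero hc, ?_⟩
  have hmem : algebraMap Qb (FNb N) c⁻¹ * f ∈ G.O := by
    rw [key]
    exact G.O.mul_mem _ _ m₁ hinv
  refine ⟨hmem, ?_⟩
  have heq : (⟨algebraMap Qb (FNb N) c⁻¹ * f, hmem⟩ : G.O) =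
      ⟨(y₁ : FNb N), m₁⟩ * ⟨((y₂ : FNb N))⁻¹, hinv⟩ := Subtype.ext key
  rw [heq, map_mul, hρinv]
  exact mul_ne_zero hn₁ (inv_ne_zero hn₂)

omit [NeZero N] in
/-- Inertia moves an integral series with nonzero reduction to an element of `O` with the same
reduction. -/
theorem inertia_intQ (hlink : Red.H759.Link G) (σ : GalQ) (hσ : σ ∈ A.inertiaSubgroupIn ℚ)
    (y : IntQ N A) (hy : redQ' N A y ≠ 0) :
    ∃ h : galAct N σ • (y : FNb N) ∈ G.O,
      G.ρ ⟨galAct N σ • (y : FNb N), h⟩ = redQ' N A y := by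
  set s := H940.series A (residue A) (modularFunctionFieldBar N)
    (modularFunctionFieldFullC (kRes A) N) y with hs_def
  have hs : coeffMap A.subtype s = ((y : FNb N) : LaurentSeries Qb) :=
    H940.coeffMap_series A (residue A) (modularFunctionFieldBar N)
      (modularFunctionFieldFullC (kRes A) N) y
  have hsk : coeffMap (residue A) s ∈ modularFunctionFieldFullC (kRes A) N :=
    H940.coeffMap_series_mem A (residue A) (modularFunctionFieldBar N)
      (modularFunctionFieldFullC (kRes A) N) y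
  have hne : coeffMap (residue A) s ≠ 0 := fun h0 => hy (Subtype.ext h0)
  -- the twisted series
  let σA : A →+* A := H817.inertiaRes ℚ hσ
  have h1 : coeffMap A.subtype (coeffMap σA s) =
      ((galAct N σ • (y : FNb N) : FNb N) : LaurentSeries Qb) := by
    rw [coe_arithmeticGalois_smul, ← hs, coeffMap_coeffMap, coeffMap_coeffMap]
    exact coeffMap_congr (RingHom.ext fun a => rfl) s
  have h2 : coeffMap (residue A) (coeffMap σA s) = coeffMap (residue A) s := by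
    rw [coeffMap_coeffMap]
    exact coeffMap_congr (H817.residue_comp_inertiaRes ℚ hσ) s
  have hsk' : coeffMap (residue A) (coeffMap σA s) ∈ modularFunctionFieldFullC (kRes A) N := by
    rw [h2]; exact hsk
  have hne' : coeffMap (residue A) (coeffMap σA s) ≠ 0 := by rw [h2]; exact hne
  obtain ⟨h, hρ⟩ := mem_of_series G hlink (galAct N σ • (y : FNb N)) (coeffMap σA s) h1 hsk' hne'
  refine ⟨h, hρ.trans ?_⟩
  exact Subtype.ext h2

set_option maxHeartbeats 2000000 in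
/-- The inertia group preserves `O`, and `ρ (τ f) = ρ f`: **GR-G** for a linked datum. -/
theorem inertiaRed_of_link (hlink : Red.H759.Link G) (ℓ : ℕ) (hℓ : ℓ.Prime) (hℓN : ¬ ℓ ∣ N)
    (hA : (ℓ : Qb) ∈ A.nonunits) (σ : GalQ) (hσ : σ ∈ A.inertiaSubgroupIn ℚ) (f : G.O) :
    ∃ h : galAct N σ • (f : FNb N) ∈ G.O, G.ρ ⟨galAct N σ • (f : FNb N), h⟩ = G.ρ f := by
  by_cases hf : (f : FNb N) = 0
  · have h0 : galAct N σ • (f : FNb N) = 0 := by rw [hf, smul_zero]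
    have hmem : galAct N σ • (f : FNb N) ∈ G.O := by rw [h0]; exact G.O.zero_mem
    refine ⟨hmem, ?_⟩
    have e1 : (⟨galAct N σ • (f : FNb N), hmem⟩ : G.O) = 0 := Subtype.ext h0
    have e2 : f = 0 := Subtype.ext hf
    rw [e1, e2]
  obtain ⟨c, hc, y₁, y₂, h₁, h₂, hfy⟩ := valueGroup ℓ hℓ hℓN hA (f : FNb N) hf
  obtain ⟨m₁, hρ₁⟩ := mem_of_intQ G hlink y₁ h₁
  obtain ⟨m₂, hρ₂⟩ := mem_of_intQ G hlink y₂ h₂
  obtain ⟨n₁, hτ₁⟩ := inertia_intQ G hlink σ hσ y₁ h₁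
  obtain ⟨n₂, hτ₂⟩ := inertia_intQ G hlink σ hσ y₂ h₂
  have hn₁ : G.ρ ⟨(y₁ : FNb N), m₁⟩ ≠ 0 := by rw [hρ₁]; exact h₁
  have hn₂ : G.ρ ⟨(y₂ : FNb N), m₂⟩ ≠ 0 := by rw [hρ₂]; exact h₂
  have hk₂ : G.ρ ⟨galAct N σ • (y₂ : FNb N), n₂⟩ ≠ 0 := by rw [hτ₂]; exact h₂
  have hy₁0 : (y₁ : FNb N) ≠ 0 := by
    intro h0
    apply hn₁
    have : (⟨(y₁ : FNb N), m₁⟩ : G.O) = 0 := Subtype.ext h0
    rw [this, map_zero]
  have hy₂0 : (y₂ : FNb N) ≠ 0 := by
    intro h0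
    apply hn₂
    have : (⟨(y₂ : FNb N), m₂⟩ : G.O) = 0 := Subtype.ext h0
    rw [this, map_zero]
  have hinv₁ : ((y₁ : FNb N))⁻¹ ∈ G.O := Red.H160.inv_mem G m₁ hn₁
  have hinv₂ : ((y₂ : FNb N))⁻¹ ∈ G.O := Red.H160.inv_mem G m₂ hn₂
  have hρinv₂ := Red.H160.ρ_inv G m₂ hn₂
  have hτinv₂ : (galAct N σ • (y₂ : FNb N))⁻¹ ∈ G.O := Red.H160.inv_mem G n₂ hk₂
  have hρτinv₂ := Red.H160.ρ_inv G n₂ hk₂
  -- `c ∈ A`
  have hcO : algebraMap Qb (FNb N) c ∈ G.O := by
    have : algebraMap Qb (FNb N) c = (f : FNb N) * (y₂ : FNb N) * ((y₁ : FNb N))⁻¹ := by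
      rw [hfy, mul_assoc, mul_inv_cancel₀ hy₁0, mul_one]
    rw [this]
    exact G.O.mul_mem _ _ (G.O.mul_mem _ _ f.2 m₂) hinv₁
  have hcA : c ∈ A := Red.H160.mem_of_algebraMap_mem G hcO
  have hσc : σ c ∈ A := H817.mem_of_mem_inertiaSubgroupIn ℚ hσ ⟨c, hcA⟩
  have hσcres : residue A ⟨σ c, hσc⟩ = residue A ⟨c, hcA⟩ :=
    H817.residue_of_mem_inertiaSubgroupIn ℚ hσ ⟨c, hcA⟩
  -- the two normal forms
  have key : (f : FNb N) = algebraMap Qb (FNb N) c * (y₁ : FNb N) * ((y₂ : FNb N))⁻¹ := by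
    rw [← hfy, mul_assoc, mul_inv_cancel₀ hy₂0, mul_one]
  have hτy₂0 : galAct N σ • (y₂ : FNb N) ≠ 0 := by
    intro h0
    apply hk₂
    have : (⟨galAct N σ • (y₂ : FNb N), n₂⟩ : G.O) = 0 := Subtype.ext h0
    rw [this, map_zero]
  have keyτ : galAct N σ • (f : FNb N) =
      algebraMap Qb (FNb N) (σ c) * (galAct N σ • (y₁ : FNb N)) *
        (galAct N σ • (y₂ : FNb N))⁻¹ := by
    have h3 : galAct N σ • ((f : FNb N) * (y₂ : FNb N)) =
        galAct N σ • (algebraMap Qb (FNb N) c * (y₁ : FNb N)) := by rw [hfy]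
    rw [smul_mul', smul_mul', SemilinearAut.smul_algebraMap] at h3
    have h4 : SemilinearAut.baseAut (galAct N σ) c = σ c := rfl
    rw [h4] at h3
    rw [← h3, mul_assoc, mul_inv_cancel₀ hτy₂0, mul_one]
  have hmem : galAct N σ • (f : FNb N) ∈ G.O := by
    rw [keyτ]
    exact G.O.mul_mem _ _ (G.O.mul_mem _ _ (G.const_mem ⟨σ c, hσc⟩) n₁) hτinv₂
  refine ⟨hmem, ?_⟩
  have e1 : (⟨galAct N σ • (f : FNb N), hmem⟩ : G.O) =
      ⟨algebraMap Qb (FNb N) (((⟨σ c, hσc⟩ : A) : Qb)), G.const_mem _⟩ *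
        ⟨galAct N σ • (y₁ : FNb N), n₁⟩ * ⟨(galAct N σ • (y₂ : FNb N))⁻¹, hτinv₂⟩ :=
    Subtype.ext keyτ
  have e2 : f = ⟨algebraMap Qb (FNb N) (((⟨c, hcA⟩ : A) : Qb)), G.const_mem _⟩ *
        ⟨(y₁ : FNb N), m₁⟩ * ⟨((y₂ : FNb N))⁻¹, hinv₂⟩ := Subtype.ext key
  rw [e1]
  conv_rhs => rw [e2]
  rw [map_mul, map_mul, map_mul, map_mul, G.ρ_const, G.ρ_const, hσcres, hτ₁, hρ₁, hρτinv₂,
    hρinv₂, hτ₂, hρ₂]

end Fermat.Agent.S19.H979

end
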