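import Fermat.Agent.S19.H979.GrLinked
import Fermat.Agent.S37.Core.Leaves
import Fermat.Agent.S37.Core.DatumLeaf
import Fermat.Agent.S37.Red.H940.MainStatement
import Fermat.Agent.S37.H697.Final
import Fermat.Agent.S54.FrobExists

/-!
# Cell A3 (S19) — block GR, version 2: from the datum of row S37  (deputy helper979)

    GrStatement  <==  S37.Core.DatumStatement  +  GrGenusStatement  +  GrOrthoStatement₂
                                                                        [grStatement_of_datum, PROVED]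
    S37.Core.DatumStatement  <==  the OPEN leaves D2, D3, D4, MOD of row S37 (their `Core/Leaves.lean`)

Everything else is PROVED here or on main: the place map (`S37.Red.H940.mainStatement`), Gauss
(`gauss_of_link`), inertia on functions (`inertiaRed_of_link`), inertia on places
(`inertiaPlace_of_link`, from `S37.H697.placeReduction_equivariant`), Riemann–Roch hypotheses,
the inertia-fixed place, inertia-fixed lifts of residue constants, rank one.

OPEN for cell A3 in block GR (exact statements below / in `GrSpec.lean`):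
* `GrGenusStatement`   (GR-E)  `genusFF Q̄ F_N = genusFF k F_{N,k}`;
* `GrOrthoStatement₂`  (GR-F)  orthonormal bases of `L(D)`, inertia-invariant if `D` is.
-/

set_option autoImplicit false
set_option synthInstance.maxHeartbeats 400000

noncomputable section

open AlgebraicCurve ModularCurve IsLocalRing HahnSeries

namespace Fermat.Agent.S19.H979

open Fermat.Agent.S19 Fermat.Agent.S37

set_option maxHeartbeats 1000000 in
/-- **GR-F**, version 2 (for a linked datum with good charts). -/
def GrOrthoStatement₂ : Prop :=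
  ∀ (N : ℕ) [NeZero N] (ℓ : ℕ) [Fact ℓ.Prime], ¬ ℓ ∣ N → GoodLevel N ℓ →
    ∀ (A : ValuationSubring Qb), (ℓ : Qb) ∈ A.nonunits →
    ∀ (G : Red.Datum A (residue A) (FNb N) (FNres A N)), G.Good → Red.H759.Link G →
    ∀ D : Divisor Qb (FNb N),
      ∃ (n : ℕ) (b : Fin n → G.O),
        LinearIndependent (kRes A) (fun i => G.ρ (b i)) ∧
        (∀ i, ((b i : G.O) : FNb N) ∈ riemannRochSpace D) ∧
        Submodule.span Qb (Set.range fun i => ((b i : G.O) : FNb N)) = riemannRochSpace D ∧
        ((∀ σ ∈ A.inertiaSubgroupIn ℚ, galAct N σ • D = D) →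
          ∀ i, ∀ σ ∈ A.inertiaSubgroupIn ℚ,
            galAct N σ • ((b i : G.O) : FNb N) = ((b i : G.O) : FNb N))

section Place

variable {N : ℕ} [NeZero N] {A : ValuationSubring Qb}
  (G : Red.Datum A (residue A) (FNb N) (FNres A N))

omit [NeZero N] in
/-- (i)+(ii) for a linked datum give the Prelude's `IsPlaceReductionModL`. -/
theorem isPlaceReduction_of_link (hlink : Red.H759.Link G)
    (r : Place Qb (FNb N) → Place (kRes A) (FNres A N)) (hr : Red.IsRed G r) :
    IsPlaceReductionModL A N r := by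
  refine ⟨hr.1, ?_⟩
  intro y hy hyk hne D hD Q
  obtain ⟨h, hρ⟩ := hlink y hy hyk hne
  have hne' : G.ρ ⟨⟨coeffMap A.subtype y, hy⟩, h⟩ ≠ 0 := by
    rw [hρ]
    intro h0
    exact hne (congrArg Subtype.val h0)
  have key := hr.2 _ h hne' D hD Q
  rw [hρ] at key
  exact key

set_option maxHeartbeats 2000000 in
/-- **GR-H** for a linked datum: inertia acts trivially on reduced places. -/
theorem inertiaPlace_of_link (hlink : Red.H759.Link G) (ℓ : ℕ) (hℓ : ℓ.Prime) (hℓN : ¬ ℓ ∣ N)
    (hA : (ℓ : Qb) ∈ A.nonunits)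
    (r : Place Qb (FNb N) → Place (kRes A) (FNres A N)) (hr : Red.IsRed G r)
    (σ : GalQ) (hσ : σ ∈ A.inertiaSubgroupIn ℚ) (P : Place Qb (FNb N)) :
    r (galAct N σ • P) = r P := by
  have hr' := isPlaceReduction_of_link G hlink r hr
  have hgen := H98.gen N ℓ hℓ hℓN A hA
  have hff1 := Fermat.Agent.Lib.RR.H864.ff1_modularFunctionFieldBar N
  have hpd : HasPrincipalDivisors Qb (FNb N) := hff1.hpd
  have hprin0 : ∀ D ∈ Divisor.principal (K := Qb) (F := FNb N), Divisor.degree D = 0 := by
    rintro D ⟨f, hf, hD⟩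
    obtain ⟨D', hD', hdeg'⟩ := hpd.exists_divisor f hf
    have : D = D' := Finsupp.ext fun v => by rw [hD v, hD' v]
    rw [this]; exact hdeg'
  -- `r` is not constant on principal divisors: use `j`
  have hnc : ∃ D ∈ Divisor.principal (K := Qb) (F := FNb N), Finsupp.mapDomain r D ≠ 0 := by
    have hy : coeffMap A.subtype (jSeries A 1) ∈ modularFunctionFieldBar N := by
      rw [coeffMap_subtype_jSeries]
      exact coeffEmb_mem_laurentBaseChange Qb (jqd_mem_full N (one_dvd N))
    have hyk : coeffMap (residue A) (jSeries A 1) ∈ modularFunctionFieldFullC (kRes A) N := by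
      rw [coeffMap_residue_jSeries]
      exact jqModCd_mem_full (kRes A) N (one_dvd N)
    have hne : coeffMap (residue A) (jSeries A 1) ≠ 0 := by
      rw [coeffMap_residue_jSeries]
      exact (map_ne_zero (qExpand (kRes A) 1)).2 (jqModC_ne_zero_of_nontrivial (kRes A))
    have hj0 : (⟨coeffMap A.subtype (jSeries A 1), hy⟩ : FNb N) ≠ 0 := by
      intro h0
      have h1 : coeffMap A.subtype (jSeries A 1) = 0 := congrArg Subtype.val h0
      apply hne
      have h2 : jSeries A 1 = 0 :=
        H940.coeffMap_subtype_injective A (by rw [h1, map_zero])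
      rw [h2, map_zero]
    obtain ⟨D, hD, -⟩ := hpd.exists_divisor _ hj0
    refine ⟨D, ⟨_, hj0, hD⟩, ?_⟩
    intro hzero
    have key := hr'.2 (jSeries A 1) hy hyk hne D hD
    -- all orders of `j̄` vanish, so `j̄` is constant: contradiction
    have hall : ∀ Q : Place (kRes A) (FNres A N),
        Q.ord (⟨coeffMap (residue A) (jSeries A 1), hyk⟩ : FNres A N) = 0 := fun Q => by
      rw [← key Q, hzero, Finsupp.zero_apply]
    have hne' : (⟨coeffMap (residue A) (jSeries A 1), hyk⟩ : FNres A N) ≠ 0 := fun h0 =>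
      hne (congrArg Subtype.val h0)
    obtain ⟨c, hc⟩ := Fermat.Agent.S18.H383.t3Statement N ℓ hℓ hℓN A hA _ hne' hall
    have htr := Fermat.Agent.S18.H739.transcendental_jC (kRes A) N
    apply htr
    have hjeq : (⟨jqModC (kRes A), jqModC_mem_full (kRes A) N⟩ : FNres A N) =
        algebraMap (kRes A) (FNres A N) c := by
      rw [← hc]
      apply Subtype.ext
      show jqModC (kRes A) = coeffMap (residue A) (jSeries A 1)
      rw [coeffMap_residue_jSeries, qExpand_one_apply]
    rw [hjeq]
    exact isAlgebraic_algebraMap c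
  have hσA : ∀ a ∈ A, σ a ∈ A := fun a ha =>
    H817.mem_of_mem_inertiaSubgroupIn ℚ hσ ⟨a, ha⟩
  have hφ : ∀ a : A, residue A ⟨σ a, hσA a a.2⟩ = (RingEquiv.refl (kRes A)) (residue A a) :=
    fun a => H817.residue_of_mem_inertiaSubgroupIn ℚ hσ a
  have key := H697.placeReduction_equivariant hr' hgen
    (fun P => Fermat.Agent.Lib.FF398.deg_eq_one_FF N P) hprin0 (H697.riemannBound_modular N)
    hnc σ hσA (RingEquiv.refl (kRes A)) hφ P
  rw [H697.coeffSL_refl, one_smul] at key
  exact key

end Place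

/-! ## The glue, version 2 -/

set_option maxHeartbeats 2000000 in
/-- **Glue (v2)**: `GrStatement` from the datum of row S37, equal genus and orthonormal bases. -/
theorem grStatement_of_datum (hDatum : Core.DatumStatement) (hGenus : GrGenusStatement)
    (hOrtho : GrOrthoStatement₂) : GrStatement := by
  intro N _ ℓ hfact hℓN hgood
  have hℓ : ℓ.Prime := hfact.out
  obtain ⟨A, hℓA⟩ := Fermat.Agent.S54.exists_valuationSubring_liesOver ℓ hℓ
  obtain ⟨G, hG, hlink⟩ := hDatum N ℓ hℓ hℓN hgood A hℓA
  have : IsAlgClosed (kRes A) := Fermat.Agent.S18.H9.resAlgClosed Qb A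
  have : Algebra.IsAlgebraic ℚ Qb := AlgebraicClosure.isAlgebraic ℚ
  obtain ⟨r, hr, -⟩ := Red.H940.mainStatement Qb (kRes A) (FNb N) (FNres A N) A (residue A) G hG
  let I : Subgroup (SemilinearAut Qb (FNb N)) :=
    (A.inertiaSubgroupIn ℚ).map (arithmeticGalois (modularFunctionFieldFull N))
  have hI : ∀ g ∈ I, ∃ σ ∈ A.inertiaSubgroupIn ℚ, galAct N σ = g := fun g hg => hg
  have hbase : ∀ σ ∈ A.inertiaSubgroupIn ℚ, ∀ a : Qb, a ∈ A → σ a - a ∈ A.nonunits :=
    fun σ hσ a ha => Fermat.Agent.S05.Sq12.sub_mem_nonunits_of_mem_inertiaIn A hσ ha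
  refine ⟨kRes A, inferInstance, inferInstance, FNres A N, inferInstance, inferInstance,
    { V := A
      O := G.O
      res := residue A
      red := G.ρ
      r := r
      I := I
      res_surjective := IsLocalRing.residue_surjective
      res_eq_zero := fun a => by
        rw [IsLocalRing.residue_eq_zero_iff, ValuationSubring.coe_mem_nonunits_iff]
      algebraMap_mem := fun a =>
        ⟨fun h => Red.H160.mem_of_algebraMap_mem G h, fun h => G.const_mem ⟨a, h⟩⟩
      red_algebraMap := fun a _ => G.ρ_const a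
      red_surjective := G.ρ_surj
      gauss := gauss_of_link G hlink ℓ hℓ hℓN hℓA
      div_red := fun f hf D hD Q => hr.2 (f : FNb N) f.2 hf D hD Q
      ff1 := Fermat.Agent.Lib.RR.H864.ff1_modularFunctionFieldBar N
      ff1k := Fermat.Agent.S18.H383.ff1_residue N ℓ hℓ hℓN A hℓA
      genus_eq := hGenus N ℓ hℓN hgood A hℓA
      orthonormal := ?_
      I_base := ?_
      I_red := ?_
      I_place := ?_
      I_lift_const := ?_
      I_fixed_place := ?_ }, hℓA, ?_⟩
  · -- orthonormal
    intro D
    obtain ⟨n, b, h1, h2, h3, h4⟩ := hOrtho N ℓ hℓN hgood A hℓA G hG hlink D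
    refine ⟨n, b, h1, h2, h3, fun hD i g hg => ?_⟩
    obtain ⟨σ, hσ, rfl⟩ := hI g hg
    exact h4 (fun τ hτ => hD _ ⟨τ, hτ, rfl⟩) i σ hσ
  · -- I_base
    intro g hg a
    obtain ⟨σ, hσ, rfl⟩ := hI g hg
    have h1 : σ (a : Qb) ∈ A := H817.mem_of_mem_inertiaSubgroupIn ℚ hσ a
    have h2 : residue A ⟨σ (a : Qb), h1⟩ = residue A a :=
      H817.residue_of_mem_inertiaSubgroupIn ℚ hσ a
    exact ⟨h1, h2⟩
  · -- I_red
    intro g hg f
    obtain ⟨σ, hσ, rfl⟩ := hI g hg
    exact inertiaRed_of_link G hlink ℓ hℓ hℓN hℓA σ hσ f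
  · -- I_place
    intro g hg P
    obtain ⟨σ, hσ, rfl⟩ := hI g hg
    exact inertiaPlace_of_link G hlink ℓ hℓ hℓN hℓA r hr σ hσ P
  · -- I_lift_const
    intro c
    obtain ⟨a, ha, hac, hfix⟩ :=
      Fermat.Agent.S19.H439.exists_inertia_fixed_lift (ℓ := ℓ) A hℓA c
    refine ⟨⟨a, ha⟩, hac, fun g hg => ?_⟩
    obtain ⟨σ, hσ, rfl⟩ := hI g hg
    exact hfix (σ : Qb →+* Qb) (fun b hb => hbase σ hσ b hb)
  · -- I_fixed_place
    refine ⟨Fermat.Agent.S17.H680.JZero.cusp N, fun g hg => ?_⟩
    obtain ⟨σ, -, rfl⟩ := hI g hg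
    exact Fermat.Agent.S17.H680.JZero.galois_smul_cusp N σ
  · -- inertia is contained in `I`
    intro σ hσ
    exact ⟨σ, mem_inertiaSubgroupIn_of_isInertiaAt A σ hσ, rfl⟩

/-- **GR from the open leaves of row S37** (D2, D3, D4, MOD) and the two open leaves of A3. -/
theorem grStatement_of_s37_leaves (hD2 : Core.NormalAbsStatement) (hD3 : Core.LiftLeaf)
    (hD4 : Core.H1Leaf) (hMod : Core.ModStatement) (hGenus : GrGenusStatement)
    (hOrtho : GrOrthoStatement₂) : GrStatement :=
  grStatement_of_datum (Core.datumStatement_of_leaves Core.datumLeaf hD2 hD3 hD4 hMod)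
    hGenus hOrtho

/-- **LOCAL from its open leaves** (v2). -/
theorem localStatement_of_datum (hD : AbsLocalStatement) (hDatum : Core.DatumStatement)
    (hGenus : GrGenusStatement) (hOrtho : GrOrthoStatement₂) : LocalStatement :=
  localStatement_of_abs_gr' hD (grStatement_of_datum hDatum hGenus hOrtho)

end Fermat.Agent.S19.H979

end
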