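import Fermat.Agent.S19.H979.RankOne
import Fermat.Agent.S37.Red.Node
import Fermat.Agent.S19.H439.InertiaLift
import Fermat.Agent.S05.Sq12.Inertia
import Fermat.Agent.S37.H817.GalInertia
import Fermat.Agent.S17.H680.Cusp
import Fermat.Agent.S18.H383.FF1Modular
import Fermat.Agent.Lib.RR.H864.FF1Modular

/-!
# Cell A3 (S19) — block GR: the frozen split and its glue  (deputy helper979)

`GrStatement` (file `LocalGlue.lean`) asks for a `GoodRed` datum on `F_N = Q̄(X₀(N))` at a good
level.  It is cut into the leaves below; the glue `grStatement_of_leaves` is proved here.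

Inputs taken from main (already PROVED, used by the glue):
* `Lib.RR.H864.ff1_modularFunctionFieldBar`, `S18.H383.ff1_residue`     (Riemann–Roch hypotheses),
* `S17.H680`: `JZero.cusp`, `JZero.galois_smul_cusp`                     (inertia-fixed place),
* `S19.H439.exists_inertia_fixed_lift`                                   (inertia-fixed lifts),
* `S05.Sq12`, `S37.H817`                                                 (inertia acts trivially mod `𝔪`).

OPEN leaves (each a `Prop`; `A` = valuation ring of `Q̄`, `M : S37.Red.ModDatum N A`,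
`O = M.G.O`, `ρ = M.G.ρ`, `k = A/𝔪`, `F_k = k(X₀(N))`):

* `GrDatumStatement`        GR-A  a `ModDatum N A` at every good level, for SOME `A` above `ℓ`
                                  (= RED-E of row S37, from MOD of row S18);
* `S37.Red.MainStatement`   GR-B  the place map `r` with (i), (ii), (EC)   (row S37, RED-MAIN);
* `GrGaussStatement`        GR-C  every `f ≠ 0` is `a · u`, `a ∈ Q̄ˣ`, `u ∈ Oˣ`      (`e = 1`);
* `GrGenusStatement`        GR-E  `genusFF Q̄ F_N = genusFF k F_k`;
* `GrOrthoStatement`        GR-F  orthonormal bases of `L(D)`, inertia-invariant if `D` is;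
* `GrInertiaRedStatement`   GR-G  inertia preserves `O` and acts trivially on `ρ`;
* `GrInertiaPlaceStatement` GR-H  `r (τ P) = r P` for `τ` in the inertia group.
-/

set_option autoImplicit false
set_option synthInstance.maxHeartbeats 400000

noncomputable section

open AlgebraicCurve ModularCurve IsLocalRing
open scoped Pointwise

namespace Fermat.Agent.S19.H979

open Fermat.Agent.S19

/-- `F_N = Q̄(X₀(N))`. -/
abbrev FNb (N : ℕ) : Type := modularFunctionFieldBar N

/-- the residue field of `A`. -/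
abbrev kRes (A : ValuationSubring Qb) : Type := ResidueField A

/-- `F_{N,k} = k(X₀(N))`. -/
abbrev FNres (A : ValuationSubring Qb) (N : ℕ) : Type := modularFunctionFieldFullC (kRes A) N

/-- the semilinear automorphism of `F_N` attached to `σ ∈ Gal(Q̄/ℚ)`. -/
abbrev galAct (N : ℕ) (σ : GalQ) : SemilinearAut Qb (FNb N) :=
  arithmeticGalois (modularFunctionFieldFull N) σ

/-! ## The leaves -/

/-- **GR-A**: a modular reduction datum with good charts at every good level. -/
def GrDatumStatement : Prop :=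
  ∀ (N : ℕ) [NeZero N] (ℓ : ℕ) [Fact ℓ.Prime], ¬ ℓ ∣ N → GoodLevel N ℓ →
    ∃ A : ValuationSubring Qb, (ℓ : Qb) ∈ A.nonunits ∧ Nonempty (S37.Red.ModDatum N A)

/-- **GR-C** (Gauss): the value group of `O` is the value group of `A`. -/
def GrGaussStatement : Prop :=
  ∀ (N : ℕ) (A : ValuationSubring Qb) (M : S37.Red.ModDatum N A) (f : FNb N), f ≠ 0 →
    ∃ a : Qb, a ≠ 0 ∧ ∃ h : algebraMap Qb (FNb N) a * f ∈ M.G.O,
      M.G.ρ ⟨algebraMap Qb (FNb N) a * f, h⟩ ≠ 0

/-- **GR-E** (equal genus). -/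
def GrGenusStatement : Prop :=
  ∀ (N : ℕ) [NeZero N] (ℓ : ℕ) [Fact ℓ.Prime], ¬ ℓ ∣ N → GoodLevel N ℓ →
    ∀ A : ValuationSubring Qb, (ℓ : Qb) ∈ A.nonunits →
      genusFF Qb (FNb N) = genusFF (kRes A) (FNres A N)

/-- **GR-F** (integral Riemann–Roch): every `L(D)` has an orthonormal basis, which can be chosen
inertia-invariant if `D` is inertia-invariant. -/
def GrOrthoStatement : Prop :=
  ∀ (N : ℕ) [NeZero N] (ℓ : ℕ) [Fact ℓ.Prime], ¬ ℓ ∣ N → GoodLevel N ℓ →
    ∀ (A : ValuationSubring Qb), (ℓ : Qb) ∈ A.nonunits → ∀ (M : S37.Red.ModDatum N A)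
      (D : Divisor Qb (FNb N)),
      ∃ (n : ℕ) (b : Fin n → M.G.O),
        LinearIndependent (kRes A) (fun i => M.G.ρ (b i)) ∧
        (∀ i, ((b i : M.G.O) : FNb N) ∈ riemannRochSpace D) ∧
        Submodule.span Qb (Set.range fun i => ((b i : M.G.O) : FNb N)) = riemannRochSpace D ∧
        ((∀ σ ∈ A.inertiaSubgroupIn ℚ, galAct N σ • D = D) →
          ∀ i, ∀ σ ∈ A.inertiaSubgroupIn ℚ,
            galAct N σ • ((b i : M.G.O) : FNb N) = ((b i : M.G.O) : FNb N))

/-- **GR-G**: inertia preserves `O` and acts trivially after reduction. -/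
def GrInertiaRedStatement : Prop :=
  ∀ (N : ℕ) (A : ValuationSubring Qb) (M : S37.Red.ModDatum N A),
    ∀ σ ∈ A.inertiaSubgroupIn ℚ, ∀ f : M.G.O,
      ∃ h : galAct N σ • (f : FNb N) ∈ M.G.O, M.G.ρ ⟨galAct N σ • (f : FNb N), h⟩ = M.G.ρ f

/-- **GR-H**: inertia acts trivially on reduced places. -/
def GrInertiaPlaceStatement : Prop :=
  ∀ (N : ℕ) (A : ValuationSubring Qb) (M : S37.Red.ModDatum N A)
    (r : Place Qb (FNb N) → Place (kRes A) (FNres A N)),
    S37.Red.IsRed M.G r → S37.Red.EvalCompat M.G r →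
      ∀ σ ∈ A.inertiaSubgroupIn ℚ, ∀ P : Place Qb (FNb N), r (galAct N σ • P) = r P

/-! ## Inertia: the two descriptions agree -/

/-- An automorphism which is trivial modulo `𝔪_A` lies in the decomposition group. -/
theorem mem_decomposition_of_isInertiaAt (A : ValuationSubring Qb) (σ : GalQ)
    (hσ : IsInertiaAt A σ) : σ ∈ A.decompositionSubgroup ℚ := by
  have hmem : ∀ a : Qb, a ∈ A → σ a ∈ A := fun a ha => by
    have h1 : σ a - a ∈ A := A.nonunits_subset (hσ a ha)
    have h2 : σ a = (σ a - a) + a := by ring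
    rw [h2]
    exact A.add_mem _ _ h1 ha
  have hnon : ∀ a : Qb, a ∈ A.nonunits → σ a ∈ A.nonunits := fun a ha => by
    have haA : a ∈ A := A.nonunits_subset ha
    have h1 := hσ a haA
    rw [ValuationSubring.mem_nonunits_iff] at h1 ha ⊢
    have h2 : σ a = (σ a - a) + a := by ring
    rw [h2]
    exact Valuation.map_add_lt _ h1 ha
  rw [MulAction.mem_stabilizer_iff]
  ext x
  rw [ValuationSubring.mem_smul_pointwise_iff_exists]
  constructor
  · rintro ⟨s, hs, rfl⟩
    exact hmem s hs
  · intro hx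
    refine ⟨σ.symm x, ?_, σ.apply_symm_apply x⟩
    by_contra hy
    -- `y = σ⁻¹ x ∉ A`, so `y⁻¹ ∈ 𝔪`, so `x⁻¹ = σ (y⁻¹) ∈ 𝔪`, contradiction
    have hyinv : (σ.symm x)⁻¹ ∈ A.nonunits := by
      rw [ValuationSubring.mem_nonunits_iff]
      have h1 : ¬ A.valuation (σ.symm x) ≤ 1 := fun h => hy ((A.valuation_le_one_iff _).1 h)
      have h2 : 1 < A.valuation (σ.symm x) := lt_of_not_ge h1
      rw [map_inv₀]
      exact inv_lt_one_of_one_lt₀ h2
    have h3 := hnon _ hyinv
    rw [map_inv₀, σ.apply_symm_apply] at h3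
    rw [ValuationSubring.mem_nonunits_iff, map_inv₀] at h3
    have h4 : A.valuation x ≤ 1 := (A.valuation_le_one_iff _).2 hx
    have hx0 : A.valuation x ≠ 0 := by
      intro h0
      have hx00 : x = 0 := (Valuation.zero_iff _).1 h0
      apply hy
      rw [hx00, map_zero]
      exact A.zero_mem
    have h5 : 1 ≤ (A.valuation x)⁻¹ := (one_le_inv₀ (zero_lt_iff.2 hx0)).2 h4
    exact absurd h3 (not_lt.2 h5)

/-- An automorphism which is trivial modulo `𝔪_A` lies in the inertia group of `A`. -/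
theorem mem_inertiaSubgroupIn_of_isInertiaAt (A : ValuationSubring Qb) (σ : GalQ)
    (hσ : IsInertiaAt A σ) : σ ∈ A.inertiaSubgroupIn ℚ := by
  have hσA := mem_decomposition_of_isInertiaAt A σ hσ
  refine ⟨⟨σ, hσA⟩, ?_, rfl⟩
  show (⟨σ, hσA⟩ : A.decompositionSubgroup ℚ) ∈ MonoidHom.ker _
  rw [MonoidHom.mem_ker]
  ext x
  show (⟨σ, hσA⟩ : A.decompositionSubgroup ℚ) • x = x
  obtain ⟨a, rfl⟩ := IsLocalRing.residue_surjective x
  rw [← IsLocalRing.ResidueField.residue_smul, ← sub_eq_zero, ← map_sub,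
    IsLocalRing.residue_eq_zero_iff, ← ValuationSubring.coe_mem_nonunits_iff]
  exact hσ (a : Qb) a.2

/-! ## The glue -/

set_option maxHeartbeats 1000000 in
/-- **Glue**: `GrStatement` from the leaves. -/
theorem grStatement_of_leaves (hDatum : GrDatumStatement)
    (hMain : S37.Red.MainStatement.{0}) (hGauss : GrGaussStatement)
    (hGenus : GrGenusStatement) (hOrtho : GrOrthoStatement)
    (hIRed : GrInertiaRedStatement) (hIPlace : GrInertiaPlaceStatement) : GrStatement := by
  intro N _ ℓ hfact hℓN hgood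
  obtain ⟨A, hℓA, ⟨M⟩⟩ := hDatum N ℓ hℓN hgood
  have : IsAlgClosed (kRes A) := Fermat.Agent.S18.H9.resAlgClosed Qb A
  have : Algebra.IsAlgebraic ℚ Qb := AlgebraicClosure.isAlgebraic ℚ
  obtain ⟨r, hr, hec⟩ := hMain Qb (kRes A) (FNb N) (FNres A N) A (residue A) M.G M.good
  -- the inertia group
  let I : Subgroup (SemilinearAut Qb (FNb N)) :=
    (A.inertiaSubgroupIn ℚ).map (arithmeticGalois (modularFunctionFieldFull N))
  have hI : ∀ g ∈ I, ∃ σ ∈ A.inertiaSubgroupIn ℚ, galAct N σ = g := fun g hg => hg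
  have hbase : ∀ σ ∈ A.inertiaSubgroupIn ℚ, ∀ a : Qb, a ∈ A → σ a - a ∈ A.nonunits :=
    fun σ hσ a ha => Fermat.Agent.S05.Sq12.sub_mem_nonunits_of_mem_inertiaIn A hσ ha
  refine ⟨kRes A, inferInstance, inferInstance, FNres A N, inferInstance, inferInstance,
    { V := A
      O := M.G.O
      res := residue A
      red := M.G.ρ
      r := r
      I := I
      res_surjective := IsLocalRing.residue_surjective
      res_eq_zero := fun a => by
        rw [IsLocalRing.residue_eq_zero_iff, ValuationSubring.coe_mem_nonunits_iff]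
      algebraMap_mem := ?_
      red_algebraMap := fun a _ => M.G.ρ_const a
      red_surjective := M.G.ρ_surj
      gauss := hGauss N A M
      div_red := fun f hf D hD Q => hr.2 (f : FNb N) f.2 hf D hD Q
      ff1 := Fermat.Agent.Lib.RR.H864.ff1_modularFunctionFieldBar N
      ff1k := Fermat.Agent.S18.H383.ff1_residue N ℓ hfact.out hℓN A hℓA
      genus_eq := hGenus N ℓ hℓN hgood A hℓA
      orthonormal := ?_
      I_base := ?_
      I_red := ?_
      I_place := ?_
      I_lift_const := ?_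
      I_fixed_place := ?_ }, hℓA, ?_⟩
  · -- algebraMap_mem
    intro a
    constructor
    · intro ha
      by_contra haA
      have ha0 : a ≠ 0 := fun h0 => haA (h0 ▸ A.zero_mem)
      have hinvA : a⁻¹ ∈ A := (A.mem_or_inv_mem a).resolve_left haA
      have hinvm : (⟨a⁻¹, hinvA⟩ : A) ∈ maximalIdeal A := by
        rw [mem_maximalIdeal, mem_nonunits_iff]
        intro hu
        apply haA
        have h1 := (A.valuation_eq_one_iff ⟨a⁻¹, hinvA⟩).1 hu
        have h2 : A.valuation a = 1 := by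
          have h3 : A.valuation (a⁻¹) = 1 := h1
          rw [map_inv₀, inv_eq_one] at h3
          exact h3
        exact (A.valuation_le_one_iff a).1 h2.le
      have hres : residue A ⟨a⁻¹, hinvA⟩ = 0 := (IsLocalRing.residue_eq_zero_iff _).2 hinvm
      have h1 := M.G.ρ_const ⟨a⁻¹, hinvA⟩
      rw [hres, map_zero] at h1
      have h2 : (⟨algebraMap Qb (FNb N) a, ha⟩ : M.G.O) *
          ⟨algebraMap Qb (FNb N) (((⟨a⁻¹, hinvA⟩ : A) : Qb)), M.G.const_mem _⟩ = 1 := by
        apply Subtype.ext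
        show algebraMap Qb (FNb N) a * algebraMap Qb (FNb N) a⁻¹ = 1
        rw [← map_mul, mul_inv_cancel₀ ha0, map_one]
      have h3 := congrArg M.G.ρ h2
      rw [map_mul, h1, mul_zero, map_one] at h3
      exact zero_ne_one h3
    · intro ha
      exact M.G.const_mem ⟨a, ha⟩
  · -- orthonormal
    intro D
    obtain ⟨n, b, h1, h2, h3, h4⟩ := hOrtho N ℓ hℓN hgood A hℓA M D
    refine ⟨n, b, h1, h2, h3, fun hD i g hg => ?_⟩
    obtain ⟨σ, hσ, rfl⟩ := hI g hg
    exact h4 (fun τ hτ => hD _ ⟨τ, hτ, rfl⟩) i σ hσ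
  · -- I_base
    intro g hg a
    obtain ⟨σ, hσ, rfl⟩ := hI g hg
    have h1 : σ (a : Qb) ∈ A := Fermat.Agent.S37.H817.mem_of_mem_inertiaSubgroupIn ℚ hσ a
    have h2 : residue A ⟨σ (a : Qb), h1⟩ = residue A a :=
      Fermat.Agent.S37.H817.residue_of_mem_inertiaSubgroupIn ℚ hσ a
    exact ⟨h1, h2⟩
  · -- I_red
    intro g hg f
    obtain ⟨σ, hσ, rfl⟩ := hI g hg
    exact hIRed N A M σ hσ f
  · -- I_place
    intro g hg P
    obtain ⟨σ, hσ, rfl⟩ := hI g hg
    exact hIPlace N A M r hr hec σ hσ P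
  · -- I_lift_const
    intro c
    obtain ⟨a, ha, hac, hfix⟩ :=
      Fermat.Agent.S19.H439.exists_inertia_fixed_lift (ℓ := ℓ) A hℓA c
    refine ⟨⟨a, ha⟩, hac, fun g hg => ?_⟩
    obtain ⟨σ, hσ, rfl⟩ := hI g hg
    exact hfix (σ : Qb →+* Qb) (fun b hb => hbase σ hσ b hb)
  · -- I_fixed_place
    refine ⟨Fermat.Agent.S17.H680.JZero.cusp N, fun g hg => ?_⟩
    obtain ⟨σ, -, rfl⟩ := hI g hg
    exact Fermat.Agent.S17.H680.JZero.galois_smul_cusp N σ
  · -- inertia is contained in `I`
    intro σ hσ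
    exact ⟨σ, mem_inertiaSubgroupIn_of_isInertiaAt A σ hσ, rfl⟩

/-- **LOCAL from its leaves**: the abstract LOCAL theorem (DISC) and the leaves of GR. -/
theorem localStatement_of_leaves (hD : AbsLocalStatement) (hDatum : GrDatumStatement)
    (hMain : S37.Red.MainStatement.{0}) (hGauss : GrGaussStatement)
    (hGenus : GrGenusStatement) (hOrtho : GrOrthoStatement)
    (hIRed : GrInertiaRedStatement) (hIPlace : GrInertiaPlaceStatement) : LocalStatement :=
  localStatement_of_abs_gr' hD
    (grStatement_of_leaves hDatum hMain hGauss hGenus hOrtho hIRed hIPlace)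

end Fermat.Agent.S19.H979

end
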