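import Fermat.Agent.S19.Spec
import Fermat.Agent.A3.H799.GoodRed

/-!
# Cell A3 (S19) — LOCAL = DISC + GR : the frozen split and its glue  (deputy helper979)

    S19.LocalStatement   <==   AbsLocalStatement  +  GrStatement  +  RankOneStatement

* `AbsLocalStatement` (block DISC, architect helper799): the abstract LOCAL theorem
  `Fermat.Agent.A3.H799.LocalStatement K F k Fk` (for the frozen interface
  `Fermat.Agent.A3.H799.GoodRed`), used at `K = Q̄` only.
* `GrStatement` (block GR / GOODRED-INST): at a good level `N` there is a `GoodRed` datum for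
  `F = Q̄(X₀(N))` (`modularFunctionFieldBar N`) over a valuation ring `V` of `Q̄` above `ℓ`, whose
  group `I` contains the image of the inertia group of `V` under `arithmeticGalois`.
  The residue field `k` and the special fibre `Fk` are chosen by the GR block (any `Type`).
* `RankOneStatement` (pure algebra): valuation rings of `Q̄` above `ℓ` have rank one.

The glue `localStatement_of_abs_gr` is proved here without holes.
-/

set_option autoImplicit false

noncomputable section

open AlgebraicCurve ModularCurve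

namespace Fermat.Agent.S19.H979

open Fermat.Agent.S19

/-- **DISC** (abstract LOCAL theorem, constants `Q̄`): `A3.H799.LocalStatement` for every function
field over `Q̄` and every special fibre. -/
def AbsLocalStatement : Prop :=
  ∀ (F : Type) [Field F] [Algebra Qb F] (k : Type) [Field k] [IsAlgClosed k]
    (Fk : Type) [Field Fk] [Algebra k Fk], A3.H799.LocalStatement Qb F k Fk

/-- **GR** (good reduction of `X₀(N)` at a good level, in the form of the frozen `GoodRed`). -/
def GrStatement : Prop :=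
  ∀ (N : ℕ) [NeZero N] (ℓ : ℕ) [Fact ℓ.Prime], ¬ ℓ ∣ N → GoodLevel N ℓ →
    ∃ (k : Type) (_ : Field k) (_ : IsAlgClosed k) (Fk : Type) (_ : Field Fk) (_ : Algebra k Fk)
      (𝓡 : A3.H799.GoodRed Qb (modularFunctionFieldBar N) k Fk),
      (ℓ : Qb) ∈ 𝓡.V.nonunits ∧
      ∀ σ : GalQ, IsInertiaAt 𝓡.V σ → arithmeticGalois (modularFunctionFieldFull N) σ ∈ 𝓡.I

/-- **RANK ONE** (pure algebra): a valuation ring of `Q̄` above `ℓ` has rank one. -/
def RankOneStatement : Prop :=
  ∀ (ℓ : ℕ) [Fact ℓ.Prime] (V : ValuationSubring Qb), (ℓ : Qb) ∈ V.nonunits →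
    ∀ a b : Qb, a ∈ V.nonunits → b ≠ 0 → ∃ n : ℕ, a ^ n / b ∈ V

/-- The torsion of `J₀(N)` as an additive subgroup of `Pic0`. -/
def torsSubgroup (N ℓ e : ℕ) : AddSubgroup (Pic0 Qb (modularFunctionFieldBar N)) :=
  (Submodule.torsionBy ℤ (ModularCurve.JZero N) ((ℓ : ℤ) ^ e)).toAddSubgroup

/-- The identification `Tors N ℓ e ≃+ torsSubgroup N ℓ e` (identity on the carrier). -/
def torsEquiv (N ℓ e : ℕ) : Tors N ℓ e ≃+ torsSubgroup N ℓ e where
  toFun x := ⟨(x : ModularCurve.JZero N), x.2⟩
  invFun x := ⟨(x : Pic0 Qb (modularFunctionFieldBar N)), x.2⟩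
  left_inv _ := rfl
  right_inv _ := rfl
  map_add' _ _ := rfl

theorem smul_mem_torsSubgroup (N ℓ e : ℕ)
    (g : SemilinearAut Qb (modularFunctionFieldBar N))
    (x : Pic0 Qb (modularFunctionFieldBar N)) (hx : x ∈ torsSubgroup N ℓ e) :
    g • x ∈ torsSubgroup N ℓ e := by
  have h : ((ℓ : ℤ) ^ e) • x = 0 := (Submodule.mem_torsionBy_iff _ _).1 hx
  refine (Submodule.mem_torsionBy_iff _ _).2 ?_
  have h2 := (DistribSMul.toAddMonoidHom (Pic0 Qb (modularFunctionFieldBar N)) g).map_zsmul
    ((ℓ : ℤ) ^ e) x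
  rw [h, map_zero] at h2
  exact h2.symm

/-- **Glue**: LOCAL from the abstract LOCAL theorem, the good-reduction instance, and rank one. -/
theorem localStatement_of_abs_gr (hD : AbsLocalStatement) (hG : GrStatement)
    (hR : RankOneStatement) : LocalStatement := by
  intro N _ ℓ _ hℓN hgood e hfin
  obtain ⟨k, _, _, Fk, _, _, 𝓡, hℓ, hI⟩ := hG N ℓ hℓN hgood
  have hrank := hR ℓ 𝓡.V hℓ
  have : Finite (torsSubgroup N ℓ e) := Finite.of_equiv _ (torsEquiv N ℓ e).toEquiv
  have hT : ∀ g ∈ 𝓡.I, ∀ x ∈ torsSubgroup N ℓ e, g • x ∈ torsSubgroup N ℓ e :=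
    fun g _ x hx => smul_mem_torsSubgroup N ℓ e g x hx
  obtain ⟨ι, hι, Ψ, hinj, hint, heq, hadd⟩ :=
    hD (modularFunctionFieldBar N) k Fk 𝓡 hrank (torsSubgroup N ℓ e) hT
  refine ⟨{ V := 𝓡.V
            ell_mem := hℓ
            ι := ι
            fin := hι
            Ψ := fun m => Ψ (torsEquiv N ℓ e m)
            inj := fun m m' h => (torsEquiv N ℓ e).injective (hinj h)
            integral := fun m i => hint _ i
            equivariant := ?_
            add_mem := ?_ }⟩
  · intro σ hσ m i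
    exact heq (arithmeticGalois (modularFunctionFieldFull N) σ) (hI σ hσ) (torsEquiv N ℓ e m) i
  · intro i
    -- pull back along `torsEquiv × torsEquiv`
    let φ : (torsSubgroup N ℓ e × torsSubgroup N ℓ e → Qb) →ₐ[𝓡.V]
        (Tors N ℓ e × Tors N ℓ e → Qb) :=
      { toFun := fun G p => G (torsEquiv N ℓ e p.1, torsEquiv N ℓ e p.2)
        map_one' := rfl
        map_mul' := fun _ _ => rfl
        map_zero' := rfl
        map_add' := fun _ _ => rfl
        commutes' := fun _ => rfl }
    have h1 := Subalgebra.mem_map.2 ⟨_, hadd i, (rfl : φ _ = φ _)⟩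
    rw [AlgHom.map_adjoin] at h1
    have h2 : (fun p : Tors N ℓ e × Tors N ℓ e => Ψ (torsEquiv N ℓ e (p.1 + p.2)) i) =
        φ (fun p : torsSubgroup N ℓ e × torsSubgroup N ℓ e => Ψ (p.1 + p.2) i) := by
      funext p
      show Ψ (torsEquiv N ℓ e (p.1 + p.2)) i = Ψ (torsEquiv N ℓ e p.1 + torsEquiv N ℓ e p.2) i
      rw [map_add]
    rw [h2]
    refine Algebra.adjoin_mono ?_ h1
    rintro _ ⟨g, (⟨j, rfl⟩ | ⟨j, rfl⟩), rfl⟩
    · exact Or.inl ⟨j, rfl⟩
    · exact Or.inr ⟨j, rfl⟩

end Fermat.Agent.S19.H979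

end
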